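import Fermat.Agent.GR.D.Vert.GaussO

/-!
# GT-VAL, layer Gauss, file Along: the Gauss valuation subring along an embedding `φ : F → K((t))`

`K` a field, `RK` a valuation subring of `K` which is a DVR.  `Vert.IsGInt RK x` : `x ∈ K((t))` lies in the
localisation of `RK((t))` at the uniformizer; `Vert.gredFun RK x` its reduction in `k((t))`.
`Bdd RK x` : `x` is a quotient of two series with coefficients in `RK`.
-/

set_option autoImplicit false
set_option linter.unusedSectionVars false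

namespace Fermat.Agent.GT.Val

open Fermat.Agent.GR Fermat.Agent.GR.D.Vert Fermat.Agent.S28 ModularCurve

noncomputable section

variable {K : Type*} [Field K] (RK : ValuationSubring K) [IsDiscreteValuationRing RK]

/-- `x` is a quotient of two series with coefficients in `RK`. -/
def Bdd (x : LaurentSeries K) : Prop :=
  ∃ a b : LaurentSeries RK, b ≠ 0 ∧ embL RK K b * x = embL RK K a

variable {RK}

theorem bdd_emb (y : LaurentSeries RK) : Bdd RK (embL RK K y) :=
  ⟨y, 1, one_ne_zero, by rw [map_one, one_mul]⟩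

theorem bdd_of_isInt {f : LaurentSeries K} (hf : IsInt RK f) : Bdd RK f := by
  obtain ⟨y, rfl⟩ := exists_embL_eq hf
  exact bdd_emb y

theorem Bdd.add {x y : LaurentSeries K} (hx : Bdd RK x) (hy : Bdd RK y) : Bdd RK (x + y) := by
  obtain ⟨a, b, hb, h⟩ := hx
  obtain ⟨a', b', hb', h'⟩ := hy
  refine ⟨b' * a + b * a', b * b', mul_ne_zero hb hb', ?_⟩
  rw [map_mul, map_add, map_mul, map_mul, ← h, ← h']
  ring

theorem Bdd.mul {x y : LaurentSeries K} (hx : Bdd RK x) (hy : Bdd RK y) : Bdd RK (x * y) := by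
  obtain ⟨a, b, hb, h⟩ := hx
  obtain ⟨a', b', hb', h'⟩ := hy
  refine ⟨a * a', b * b', mul_ne_zero hb hb', ?_⟩
  rw [map_mul, map_mul, ← h, ← h']
  ring

theorem Bdd.neg {x : LaurentSeries K} (hx : Bdd RK x) : Bdd RK (-x) := by
  obtain ⟨a, b, hb, h⟩ := hx
  exact ⟨-a, b, hb, by rw [map_neg, ← h]; ring⟩

theorem Bdd.inv {x : LaurentSeries K} (hx : Bdd RK x) : Bdd RK x⁻¹ := by
  by_cases hx0 : x = 0
  · subst hx0
    rw [inv_zero]
    exact ⟨0, 1, one_ne_zero, by rw [map_zero, mul_zero]⟩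
  obtain ⟨a, b, hb, h⟩ := hx
  have ha : a ≠ 0 := by
    rintro rfl
    rw [map_zero, mul_eq_zero] at h
    rcases h with h | h
    · exact hb (embL_injective RK K (by rw [h, map_zero]))
    · exact hx0 h
  exact ⟨b, a, ha, by rw [← h, mul_assoc, mul_inv_cancel₀ hx0, mul_one]⟩

/-- constants are bounded (`K = Frac RK`). -/
theorem bdd_C (c : K) : Bdd RK (HahnSeries.C c : LaurentSeries K) := by
  rcases RK.mem_or_inv_mem c with hc | hc
  · have h := bdd_emb (K := K) (RK := RK) (HahnSeries.C (⟨c, hc⟩ : RK))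
    rw [coeffMap_C] at h
    exact h
  · have h := (bdd_emb (K := K) (RK := RK) (HahnSeries.C (⟨c⁻¹, hc⟩ : RK))).inv
    rw [coeffMap_C] at h
    have e : (HahnSeries.C ((algebraMap RK K) ⟨c⁻¹, hc⟩) : LaurentSeries K)⁻¹ = HahnSeries.C c := by
      have : (algebraMap RK K) ⟨c⁻¹, hc⟩ = c⁻¹ := rfl
      rw [this, ← map_inv₀, inv_inv]
    rwa [e] at h

theorem IsGInt.bdd {x : LaurentSeries K} (hx : IsGInt RK x) : Bdd RK x := by
  obtain ⟨s, y, hs, hy⟩ := hx
  exact ⟨y, s, fun h => hs (by rw [h, map_zero]), hy⟩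

theorem Bdd.isGInt_or_inv {x : LaurentSeries K} (hx : Bdd RK x) : IsGInt RK x ∨ IsGInt RK x⁻¹ := by
  obtain ⟨a, b, hb, h⟩ := hx
  obtain ⟨ϖ, hϖ⟩ := IsDiscreteValuationRing.exists_irreducible RK
  exact Fermat.Agent.GR.D.Vert.isGInt_or_inv hϖ hb h

/-- discreteness. -/
theorem Bdd.exists_not_isGInt {ϖ : RK} (hϖ : Irreducible ϖ) {x : LaurentSeries K} (hx : Bdd RK x)
    (h0 : x ≠ 0) : ∃ m : ℕ, ¬ IsGInt RK (x / HahnSeries.C (ϖ : K) ^ m) := by
  obtain ⟨a, b, hb, h⟩ := hx
  have ha : a ≠ 0 := by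
    rintro rfl
    rw [map_zero, mul_eq_zero] at h
    rcases h with h | h
    · exact hb (embL_injective RK K (by rw [h, map_zero]))
    · exact h0 h
  obtain ⟨m, a', rfl, ha'⟩ := exists_eq_C_pow_mul hϖ ha
  refine ⟨m + 1, fun hz => ?_⟩
  have hne : (HahnSeries.C (ϖ : K) : LaurentSeries K) ≠ 0 := embL_C_ne_zero (L := K) hϖ
  have hC : embL RK K (HahnSeries.C ϖ) = HahnSeries.C (ϖ : K) := coeffMap_C _ _
  have h1 : embL RK K (HahnSeries.C ϖ * b) * (x / HahnSeries.C (ϖ : K) ^ (m + 1)) =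
      embL RK K a' := by
    rw [map_mul, map_pow, hC] at h
    rw [map_mul, hC]
    apply mul_left_cancel₀ (pow_ne_zero m hne)
    rw [← h]
    field_simp
    ring
  have h2 := gredFun_mul (isGInt_emb (L := K) (HahnSeries.C ϖ * b)) hz
  rw [h1, gredFun_emb, gredFun_emb, map_mul, redL_C_eq_zero hϖ, zero_mul, zero_mul] at h2
  exact ha' h2

/-- an integral series one of whose coefficients is a unit has nonzero reduction. -/
theorem gredFun_ne_zero_of_isPrim {f : LaurentSeries K} (hf : IsPrim RK f) :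
    IsGInt RK f ∧ gredFun RK f ≠ 0 := by
  obtain ⟨y, rfl⟩ := exists_embL_eq hf.1
  exact ⟨isGInt_emb y, by rw [gredFun_emb]; exact redL_ne_zero_of_isPrim hf⟩

variable (RK)

open Classical in
/-- The Gauss valuation subring of `F` along `φ` (junk `⊤` unless all `φ x` are bounded). -/
def gaussAlong {F : Type*} [Field F] (φ : F →+* LaurentSeries K) : ValuationSubring F :=
  if h : ∀ x, Bdd RK (φ x) then
    { carrier := {u | IsGInt RK (φ u)}
      mul_mem' := fun {a b} ha hb => by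
        rw [Set.mem_ofPred_eq, map_mul]; exact IsGInt.mul ha hb
      one_mem' := by rw [Set.mem_ofPred_eq, map_one]; exact isGInt_one
      add_mem' := fun {a b} ha hb => by
        rw [Set.mem_ofPred_eq, map_add]; exact IsGInt.add ha hb
      zero_mem' := by
        rw [Set.mem_ofPred_eq, map_zero]; exact (gaussQ RK K).zero_mem
      neg_mem' := fun {a} ha => by
        rw [Set.mem_ofPred_eq, map_neg]; exact IsGInt.neg ha
      mem_or_inv_mem' := fun a => by
        rw [Set.mem_ofPred_eq, Set.mem_ofPred_eq, map_inv₀]; exact (h a).isGInt_or_inv }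
  else ⊤

variable {RK} {F : Type*} [Field F] {φ : F →+* LaurentSeries K}

theorem mem_gaussAlong (h : ∀ x, Bdd RK (φ x)) {u : F} :
    u ∈ gaussAlong RK φ ↔ IsGInt RK (φ u) := by
  rw [gaussAlong, dif_pos h]
  exact Iff.rfl

theorem Along_mem_nonunits_iff (A : ValuationSubring F) (u : F) :
    u ∈ A.nonunits ↔ u = 0 ∨ u⁻¹ ∉ A := by
  rw [ValuationSubring.mem_nonunits_iff]
  by_cases hu : u = 0
  · subst hu
    simp
  · rw [or_iff_right hu, ← A.valuation_le_one_iff, map_inv₀, not_le,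
      one_lt_inv₀ (zero_lt_iff.2 ((map_ne_zero _).2 hu))]

/-- general form: a valuation subring cut out by `IsGInt ∘ φ`. -/
theorem Along_mem_nonunits_of_spec {A : ValuationSubring F}
    (hA : ∀ u, u ∈ A ↔ IsGInt RK (φ u)) {u : F} :
    u ∈ A.nonunits ↔ IsGInt RK (φ u) ∧ gredFun RK (φ u) = 0 := by
  rw [Along_mem_nonunits_iff]
  constructor
  · rintro (rfl | hu)
    · rw [map_zero]
      exact ⟨(gaussQ RK K).zero_mem, gredFun_zero⟩
    · have h1 : IsGInt RK (φ u) := (hA u).1 ((A.mem_or_inv_mem u).resolve_right hu)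
      refine ⟨h1, by_contra fun h0 => hu ((hA _).2 ?_)⟩
      rw [map_inv₀]
      exact h1.inv h0
  · rintro ⟨h1, h0⟩
    by_cases hu : u = 0
    · exact Or.inl hu
    · refine Or.inr fun hinv => ?_
      have h2 := gredFun_mul h1 ((hA _).1 hinv)
      rw [← map_mul, mul_inv_cancel₀ hu, map_one, gredFun_one, h0, zero_mul] at h2
      exact one_ne_zero h2

theorem Along_sub_mem_nonunits_of_spec {A : ValuationSubring F}
    (hA : ∀ u, u ∈ A ↔ IsGInt RK (φ u)) {u v : F} (hu : u ∈ A) (hv : v ∈ A) :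
    u - v ∈ A.nonunits ↔ gredFun RK (φ u) = gredFun RK (φ v) := by
  rw [Along_mem_nonunits_of_spec hA]
  have h1 := (hA u).1 hu
  have h2 := (hA v).1 hv
  have h3 : gredFun RK (φ (u - v)) = gredFun RK (φ u) - gredFun RK (φ v) := by
    have h4 := gredFun_add h2 h2.neg
    rw [add_neg_cancel, gredFun_zero] at h4
    rw [map_sub, sub_eq_add_neg, gredFun_add h1 h2.neg, sub_eq_add_neg]
    congr 1
    exact (neg_eq_of_add_eq_zero_right h4.symm).symm
  rw [h3, sub_eq_zero]
  exact ⟨fun h => h.2, fun h => ⟨(hA _).1 (A.sub_mem hu hv), h⟩⟩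

theorem mem_nonunits_gaussAlong (h : ∀ x, Bdd RK (φ x)) {u : F} :
    u ∈ (gaussAlong RK φ).nonunits ↔ IsGInt RK (φ u) ∧ gredFun RK (φ u) = 0 :=
  Along_mem_nonunits_of_spec (fun _ => mem_gaussAlong h)

/-- `𝔪 = ϖ 𝒪`. -/
theorem mem_nonunits_gaussAlong_iff_div (h : ∀ x, Bdd RK (φ x)) {ϖ : RK} (hϖ : Irreducible ϖ)
    {u : F} :
    u ∈ (gaussAlong RK φ).nonunits ↔ IsGInt RK (φ u / HahnSeries.C (ϖ : K)) := by
  rw [mem_nonunits_gaussAlong h]
  constructor
  · rintro ⟨h1, h0⟩
    exact (gredFun_eq_zero_iff hϖ h1).1 h0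
  · intro hd
    have hne : (HahnSeries.C (ϖ : K) : LaurentSeries K) ≠ 0 := embL_C_ne_zero (L := K) hϖ
    have hC : embL RK K (HahnSeries.C ϖ) = HahnSeries.C (ϖ : K) := coeffMap_C _ _
    have h1 : IsGInt RK (φ u) := by
      have := (isGInt_emb (L := K) (HahnSeries.C ϖ)).mul hd
      rwa [hC, mul_div_cancel₀ _ hne] at this
    exact ⟨h1, (gredFun_eq_zero_iff hϖ h1).2 hd⟩

/-- the Gauss ring of `FF L N` is the Gauss ring along the inclusion. -/
theorem mem_nonunits_gaussO {L : Type*} [Field L] {R : ValuationSubring L}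
    [IsDiscreteValuationRing R] {N : ℕ} {u : FF L N} :
    u ∈ (gaussO R N).nonunits ↔
      IsGInt R (u : LaurentSeries L) ∧ gredFun R (u : LaurentSeries L) = 0 :=
  Along_mem_nonunits_of_spec (φ := valF N) (A := gaussO R N) (fun _ => Iff.rfl)

theorem bdd_coe_FF {L : Type*} [Field L] {R : ValuationSubring L} [IsDiscreteValuationRing R]
    {N : ℕ} (u : FF L N) : Bdd R (u : LaurentSeries L) := by
  rcases isGInt_or_inv_FF R N u with h | h
  · exact IsGInt.bdd h
  · have := (IsGInt.bdd h).inv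
    rwa [IntermediateField.coe_inv, inv_inv] at this

/-- two elements of a Gauss ring are congruent iff they have the same reduction. -/
theorem sub_mem_nonunits_gaussAlong (h : ∀ x, Bdd RK (φ x)) {u v : F}
    (hu : u ∈ gaussAlong RK φ) (hv : v ∈ gaussAlong RK φ) :
    u - v ∈ (gaussAlong RK φ).nonunits ↔ gredFun RK (φ u) = gredFun RK (φ v) :=
  Along_sub_mem_nonunits_of_spec (fun _ => mem_gaussAlong h) hu hv

theorem sub_mem_nonunits_gaussO {L : Type*} [Field L] {R : ValuationSubring L}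
    [IsDiscreteValuationRing R] {N : ℕ} {u v : FF L N} (hu : u ∈ gaussO R N)
    (hv : v ∈ gaussO R N) :
    u - v ∈ (gaussO R N).nonunits ↔
      gredFun R (u : LaurentSeries L) = gredFun R (v : LaurentSeries L) :=
  Along_sub_mem_nonunits_of_spec (φ := valF N) (A := gaussO R N) (fun _ => Iff.rfl) hu hv

end

end Fermat.Agent.GT.Val
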