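import Fermat.Agent.GT.Val.Gauss.Along
import Fermat.Agent.GR.F.Frob

/-!
# GT-VAL, layer Gauss, file Formal: behaviour of `IsGInt` / `gredFun` under `t ↦ t^m`, `t ↦ c t` and
under extension of the constants

All proofs: write `x = y / s` with `s, y ∈ RK((t))`, `redL s ≠ 0` (definition of `IsGInt`), apply the
operation to `s` and `y` (it commutes with `embL` and `redL`), use `gredFun_eq`.
-/

set_option autoImplicit false
set_option linter.unusedSectionVars false

namespace Fermat.Agent.GT.Val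

open Fermat.Agent.GR Fermat.Agent.GR.D.Vert Fermat.Agent.S28 ModularCurve

noncomputable section

variable {K : Type*} [Field K] {RK : ValuationSubring K} [IsDiscreteValuationRing RK]

local notation "𝕜" => IsLocalRing.ResidueField RK

/-! ### `t ↦ t^m` -/

theorem isGInt_qExpand (m : ℕ) [NeZero m] {x : LaurentSeries K} (hx : IsGInt RK x) :
    IsGInt RK (qExpand K m x) := by
  obtain ⟨s, y, hs, h⟩ := hx
  refine ⟨qExpand RK m s, qExpand RK m y, ?_, ?_⟩
  · rw [coeffMap_qExpand]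
    exact fun h0 => hs (qExpand_injective m (h0.trans (map_zero _).symm))
  · rw [coeffMap_qExpand, coeffMap_qExpand, ← map_mul, h]

theorem gredFun_qExpand (m : ℕ) [NeZero m] {x : LaurentSeries K} (hx : IsGInt RK x) :
    gredFun RK (qExpand K m x) = qExpand 𝕜 m (gredFun RK x) := by
  obtain ⟨s, y, hs, h⟩ := hx
  have hs' : redL RK (qExpand RK m s) ≠ 0 := by
    rw [coeffMap_qExpand]
    exact fun h0 => hs (qExpand_injective m (h0.trans (map_zero _).symm))
  have h' : embL RK K (qExpand RK m s) * qExpand K m x = embL RK K (qExpand RK m y) := by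
    rw [coeffMap_qExpand, coeffMap_qExpand, ← map_mul, h]
  rw [gredFun_eq hs' h', gredFun_eq hs h, coeffMap_qExpand, coeffMap_qExpand, map_div₀]

theorem bdd_qExpand (m : ℕ) [NeZero m] {x : LaurentSeries K} (hx : Bdd RK x) :
    Bdd RK (qExpand K m x) := by
  obtain ⟨a, b, hb, h⟩ := hx
  refine ⟨qExpand RK m a, qExpand RK m b, ?_, ?_⟩
  · exact fun h0 => hb (qExpand_injective m (h0.trans (map_zero _).symm))
  · rw [coeffMap_qExpand, coeffMap_qExpand, ← map_mul, h]

/-- (use `Bdd.isGInt_or_inv`: if `x` is not Gauss-integral then `x⁻¹` is, with reduction `0`) -/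
theorem isGInt_qExpand_iff (m : ℕ) [NeZero m] {x : LaurentSeries K} (hx : Bdd RK x) :
    IsGInt RK (qExpand K m x) ↔ IsGInt RK x := by
  refine ⟨fun h => ?_, isGInt_qExpand m⟩
  rcases hx.isGInt_or_inv with h1 | h1
  · exact h1
  rcases eq_or_ne x 0 with rfl | hx0
  · exact (gaussQ RK K).zero_mem
  by_cases h0 : gredFun RK x⁻¹ = 0
  · exfalso
    · have h2 : qExpand K m x * qExpand K m x⁻¹ = 1 := by
        rw [← map_mul, mul_inv_cancel₀ hx0, map_one]
      have h3 := gredFun_mul h (isGInt_qExpand m h1)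
      rw [h2, gredFun_one, gredFun_qExpand m h1, h0, map_zero, mul_zero] at h3
      exact one_ne_zero h3
  · have := IsGInt.inv h1 h0
    rwa [inv_inv] at this

/-! ### `t ↦ c t` -/

theorem Formal_coeffMap_scaleHom {Λ Λ' : Type*} [CommRing Λ] [CommRing Λ'] (φ : Λ →+* Λ') (c : Λˣ)
    (f : LaurentSeries Λ) :
    coeffMap φ (scaleHom c f) = scaleHom (Units.map (φ : Λ →* Λ') c) (coeffMap φ f) := by
  ext n
  simp only [coeffMap_coeff, scaleHom_coeff, map_mul, ← map_zpow]
  rfl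

theorem Formal_scaleHom_injective {Λ : Type*} [CommRing Λ] (c : Λˣ) :
    Function.Injective (scaleHom c) := by
  rw [injective_iff_map_eq_zero]
  intro f hf
  ext n
  have := congrArg (fun g : LaurentSeries Λ => g.coeff n) hf
  simpa [scaleHom_coeff] using this

theorem Formal_scaleHom_one {Λ : Type*} [CommRing Λ] (f : LaurentSeries Λ) :
    scaleHom (1 : Λˣ) f = f := by
  ext n
  simp [scaleHom_coeff]

/-- the unit of `RK` attached to `c`. -/
def Formal_unit (c : Kˣ) (hc : (c : K) ∈ RK) (hc' : ((c⁻¹ : Kˣ) : K) ∈ RK) : RKˣ :=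
  ⟨⟨c, hc⟩, ⟨((c⁻¹ : Kˣ) : K), hc'⟩, Subtype.ext (by simp), Subtype.ext (by simp)⟩

theorem Formal_map_unit (c : Kˣ) (hc : (c : K) ∈ RK) (hc' : ((c⁻¹ : Kˣ) : K) ∈ RK) :
    Units.map ((algebraMap RK K : RK →+* K) : RK →* K) (Formal_unit c hc hc') = c :=
  Units.ext rfl

theorem isGInt_scaleHom (c : Kˣ) (hc : (c : K) ∈ RK) (hc' : ((c⁻¹ : Kˣ) : K) ∈ RK)
    {x : LaurentSeries K} (hx : IsGInt RK x) : IsGInt RK (scaleHom c x) := by
  obtain ⟨s, y, hs, h⟩ := hx
  refine ⟨scaleHom (Formal_unit c hc hc') s, scaleHom (Formal_unit c hc hc') y, ?_, ?_⟩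
  · rw [Formal_coeffMap_scaleHom]
    exact fun h0 => hs (Formal_scaleHom_injective _ (h0.trans (map_zero _).symm))
  · rw [Formal_coeffMap_scaleHom, Formal_coeffMap_scaleHom, Formal_map_unit, ← map_mul, h]

theorem bdd_scaleHom (c : Kˣ) (hc : (c : K) ∈ RK) (hc' : ((c⁻¹ : Kˣ) : K) ∈ RK)
    {x : LaurentSeries K} (hx : Bdd RK x) : Bdd RK (scaleHom c x) := by
  obtain ⟨a, b, hb, h⟩ := hx
  refine ⟨scaleHom (Formal_unit c hc hc') a, scaleHom (Formal_unit c hc hc') b, ?_, ?_⟩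
  · exact fun h0 => hb (Formal_scaleHom_injective _ (h0.trans (map_zero _).symm))
  · rw [Formal_coeffMap_scaleHom, Formal_coeffMap_scaleHom, Formal_map_unit, ← map_mul, h]

/-- if `c ≡ 1` then `x(c t) ≡ x(t)`. -/
theorem gredFun_scaleHom (c : Kˣ) (hc : (c : K) - 1 ∈ RK.nonunits) {x : LaurentSeries K}
    (hx : IsGInt RK x) : IsGInt RK (scaleHom c x) ∧ gredFun RK (scaleHom c x) = gredFun RK x := by
  obtain ⟨hmem, hmax⟩ := ValuationSubring.mem_nonunits_iff_exists_mem_maximalIdeal.1 hc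
  have hc1 : (c : K) ∈ RK := by
    have := RK.add_mem _ _ hmem RK.one_mem
    simpa using this
  have hres : IsLocalRing.residue RK ⟨c, hc1⟩ = 1 := by
    have h1 : (⟨c, hc1⟩ : RK) = ⟨(c : K) - 1, hmem⟩ + 1 := Subtype.ext (by simp)
    rw [h1, map_add, map_one, (IsLocalRing.residue_eq_zero_iff _).2 hmax, zero_add]
  have hunit : IsUnit (⟨c, hc1⟩ : RK) := by
    by_contra hnu
    have : IsLocalRing.residue RK ⟨c, hc1⟩ = 0 :=
      (IsLocalRing.residue_eq_zero_iff _).2 ((IsLocalRing.mem_maximalIdeal _).2 hnu)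
    rw [hres] at this
    exact one_ne_zero this
  have hc2 : ((c⁻¹ : Kˣ) : K) ∈ RK := by
    obtain ⟨u, hu⟩ := hunit
    have h1 : ((u⁻¹ : RKˣ) : RK) * ⟨c, hc1⟩ = 1 := by rw [← hu]; exact u.inv_mul
    have h2 : (((u⁻¹ : RKˣ) : RK) : K) * (c : K) = 1 := congrArg Subtype.val h1
    have h3 : ((c⁻¹ : Kˣ) : K) = (((u⁻¹ : RKˣ) : RK) : K) := by
      rw [Units.val_inv_eq_inv_val]
      exact (eq_inv_of_mul_eq_one_left h2).symm
    rw [h3]
    exact Subtype.mem _
  refine ⟨isGInt_scaleHom c hc1 hc2 hx, ?_⟩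
  obtain ⟨s, y, hs, h⟩ := hx
  have hone : Units.map ((IsLocalRing.residue RK : RK →+* 𝕜) : RK →* 𝕜) (Formal_unit c hc1 hc2) = 1 :=
    Units.ext hres
  have hs' : redL RK (scaleHom (Formal_unit c hc1 hc2) s) ≠ 0 := by
    rw [Formal_coeffMap_scaleHom, hone, Formal_scaleHom_one]
    exact hs
  have h' : embL RK K (scaleHom (Formal_unit c hc1 hc2) s) * scaleHom c x =
      embL RK K (scaleHom (Formal_unit c hc1 hc2) y) := by
    rw [Formal_coeffMap_scaleHom, Formal_coeffMap_scaleHom, Formal_map_unit, ← map_mul, h]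
  rw [gredFun_eq hs' h', gredFun_eq hs h, Formal_coeffMap_scaleHom, Formal_coeffMap_scaleHom, hone,
    Formal_scaleHom_one, Formal_scaleHom_one]

/-- `f(c t) - f(t) = (c - 1) g(t)` with `g` integral, `g_n = (1 + c + ... + c^(n-1)) f_n`
(`n ≥ 0`), `g_{-1} = - c⁻¹ f_{-1}`. -/
theorem exists_scaleHom_sub (c : Kˣ) (hc : (c : K) ∈ RK) (hc' : ((c⁻¹ : Kˣ) : K) ∈ RK)
    {f : LaurentSeries K} (hf : IsInt RK f) :
    ∃ g : LaurentSeries K, IsInt RK g ∧ scaleHom c f - f = HahnSeries.C ((c : K) - 1) * g ∧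
      g.coeff (-1) = - ((c⁻¹ : Kˣ) : K) * f.coeff (-1) := by
  have hpow : ∀ i : ℕ, (c : K) ^ i ∈ RK := fun i => RK.pow_mem hc i
  have hpow' : ∀ i : ℕ, (((c⁻¹ : Kˣ) : K)) ^ i ∈ RK := fun i => RK.pow_mem hc' i
  have hsum : ∀ k : ℕ, ∑ i ∈ Finset.range k, (c : K) ^ i ∈ RK := fun k =>
    RK.toSubring.sum_mem fun i _ => hpow i
  -- the multipliers
  have hu : ∀ n : ℤ, ∃ u : K, u ∈ RK ∧ ((c ^ n : Kˣ) : K) - 1 = ((c : K) - 1) * u ∧
      (n = -1 → u = - ((c⁻¹ : Kˣ) : K)) := by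
    intro n
    rcases le_or_gt 0 n with hn | hn
    · obtain ⟨k, rfl⟩ := Int.eq_ofNat_of_zero_le hn
      refine ⟨∑ i ∈ Finset.range k, (c : K) ^ i, hsum k, ?_, fun h => by omega⟩
      rw [zpow_natCast, Units.val_pow_eq_pow_val, mul_comm, geom_sum_mul]
    · obtain ⟨k, rfl⟩ : ∃ k : ℕ, n = -(k : ℤ) := ⟨(-n).toNat, by omega⟩
      refine ⟨- (((c⁻¹ : Kˣ) : K)) ^ k * ∑ i ∈ Finset.range k, (c : K) ^ i,
        RK.mul_mem _ _ (RK.neg_mem _ (hpow' k)) (hsum k), ?_, fun h => ?_⟩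
      · have h1 : (∑ i ∈ Finset.range k, (c : K) ^ i) * ((c : K) - 1) = (c : K) ^ k - 1 :=
          geom_sum_mul _ _
        have h2 : (((c⁻¹ : Kˣ) : K)) ^ k * (c : K) ^ k = 1 := by
          rw [← mul_pow, Units.inv_mul, one_pow]
        rw [zpow_neg, zpow_natCast, ← inv_pow, Units.val_pow_eq_pow_val]
        linear_combination ((((c⁻¹ : Kˣ) : K)) ^ k) * h1 + h2
      · have hk : k = 1 := by omega
        subst hk
        simp
  choose u hu1 hu2 hu3 using hu
  refine ⟨⟨fun n => u n * f.coeff n, f.isPWO_support.mono ?_⟩, ?_, ?_, ?_⟩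
  · intro n hn
    rw [Function.mem_support] at hn
    rw [HahnSeries.mem_support]
    exact right_ne_zero_of_mul hn
  · intro n
    exact RK.mul_mem _ _ (hu1 n) (hf n)
  · ext n
    rw [HahnSeries.coeff_sub, scaleHom_coeff, HahnSeries.C_mul_eq_smul, HahnSeries.coeff_smul]
    show _ = ((c : K) - 1) • (u n * f.coeff n)
    rw [smul_eq_mul]
    linear_combination (f.coeff n) * hu2 n
  · show u (-1) * f.coeff (-1) = _
    rw [hu3 (-1) rfl]

/-! ### roots of unity -/

theorem Formal_root_mem_aux {q : ℕ} (hq : 0 < q) (ζ : Kˣ) (hζ : ζ ^ q = 1) :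
    (ζ : K) ∈ RK ∧ ((ζ⁻¹ : Kˣ) : K) ∈ RK := by
  have h1 : ζ⁻¹ = ζ ^ (q - 1) := by
    rw [inv_eq_iff_mul_eq_one, ← pow_succ', Nat.sub_add_cancel hq, hζ]
  have h2 : ζ = ζ⁻¹ ^ (q - 1) := by
    rw [inv_pow, eq_inv_iff_mul_eq_one, ← pow_succ', Nat.sub_add_cancel hq, hζ]
  rcases RK.mem_or_inv_mem (ζ : K) with h | h
  · refine ⟨h, ?_⟩
    rw [h1, Units.val_pow_eq_pow_val]
    exact pow_mem h _
  · have h' : ((ζ⁻¹ : Kˣ) : K) ∈ RK := by rwa [Units.val_inv_eq_inv_val]
    refine ⟨?_, h'⟩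
    rw [h2, Units.val_pow_eq_pow_val]
    exact pow_mem h' _

/-- a `q`-th root of unity is `≡ 1` if the residue characteristic is `q`. -/
theorem root_sub_one_mem_nonunits {q : ℕ} (hq : q.Prime) (hqR : (q : K) ∈ RK.nonunits) (ζ : Kˣ)
    (hζ : ζ ^ q = 1) : (ζ : K) - 1 ∈ RK.nonunits := by
  have hmem := (Formal_root_mem_aux (RK := RK) hq.pos ζ hζ).1
  rw [ValuationSubring.mem_nonunits_iff_exists_mem_maximalIdeal] at hqR ⊢
  obtain ⟨hq', hqm⟩ := hqR
  refine ⟨RK.sub_mem hmem RK.one_mem, ?_⟩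
  set z : RK := ⟨(ζ : K), hmem⟩ with hz
  have hzq : z ^ q = 1 := by
    apply Subtype.ext
    have := congrArg (fun u : Kˣ => (u : K)) hζ
    simpa using this
  have hx : (⟨(ζ : K) - 1, RK.sub_mem hmem RK.one_mem⟩ : RK) = z - 1 := rfl
  rw [hx]
  obtain ⟨r, hr⟩ := exists_add_pow_prime_eq hq (z - 1) 1
  rw [sub_add_cancel, hzq, one_pow] at hr
  have hqz : ((q : ℕ) : RK) ∈ IsLocalRing.maximalIdeal RK := by
    have : (⟨(q : K), hq'⟩ : RK) = ((q : ℕ) : RK) := by
      apply Subtype.ext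
      simp
    rwa [this] at hqm
  have hpow : (z - 1) ^ q ∈ IsLocalRing.maximalIdeal RK := by
    have : (z - 1) ^ q = -((q : RK) * ((z - 1) * 1 * r)) := by linear_combination -hr
    rw [this]
    exact neg_mem (Ideal.mul_mem_right _ _ hqz)
  exact (IsLocalRing.maximalIdeal.isMaximal RK).isPrime.mem_of_pow_mem _ hpow

theorem root_mem {q : ℕ} (hq : 0 < q) (ζ : Kˣ) (hζ : ζ ^ q = 1) :
    (ζ : K) ∈ RK ∧ ((ζ⁻¹ : Kˣ) : K) ∈ RK := by
  exact Formal_root_mem_aux hq ζ hζ

/-- `q = unit * (ζ - 1)^(q-1)` (`∏_{a=1}^{q-1} (1 - ζ^a) = q` and `(1 - ζ^a)/(1 - ζ)` is a unit of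
`ℤ[ζ]`). -/
theorem prime_div_root_sub_one_pow {q : ℕ} (hq : q.Prime) (ζ : Kˣ) (hζ : IsPrimitiveRoot ζ q) :
    (q : K) / ((ζ : K) - 1) ^ (q - 1) ∈ RK ∧ ((ζ : K) - 1) ^ (q - 1) / (q : K) ∈ RK := by
  have hmem := (Formal_root_mem_aux (RK := RK) hq.pos ζ hζ.pow_eq_one).1
  set z : RK := ⟨(ζ : K), hmem⟩ with hz
  have hζK : IsPrimitiveRoot (ζ : K) q := IsPrimitiveRoot.coe_units_iff.mpr hζ
  have hzprim : IsPrimitiveRoot z q :=
    IsPrimitiveRoot.of_map_of_injective (f := RK.subtype) hζK Subtype.val_injective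
  obtain ⟨n, rfl⟩ : ∃ n, q = n + 1 := ⟨q - 1, (Nat.sub_add_cancel hq.pos).symm⟩
  have hprod := hzprim.prod_pow_sub_one_eq_order
  have hassoc : Associated (∏ k ∈ Finset.range n, (z - 1)) (∏ k ∈ Finset.range n, (z ^ (k + 1) - 1)) := by
    apply Associated.prod
    intro k hk
    apply hzprim.associated_sub_one_pow_sub_one_of_coprime
    have hk' : k + 1 < n + 1 := by
      have := Finset.mem_range.mp hk
      omega
    exact (Nat.coprime_of_lt_prime (by omega) hk' hq).symm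
  rw [Finset.prod_const, Finset.card_range] at hassoc
  obtain ⟨u, hu⟩ := hassoc
  have hz1 : (ζ : K) - 1 ≠ 0 := sub_ne_zero.mpr (hζK.ne_one hq.one_lt)
  have hpow : ((ζ : K) - 1) ^ n ≠ 0 := pow_ne_zero _ hz1
  -- the unit
  have hunit : IsUnit ((-1 : RK) ^ n * (u : RK)) := (IsUnit.pow _ isUnit_one.neg).mul u.isUnit
  obtain ⟨w, hw⟩ := hunit
  have hq_eq : (((n + 1 : ℕ) : RK)) = (w : RK) * (z - 1) ^ n := by
    rw [hw]
    push_cast
    rw [← hprod, ← hu]
    ring
  have hq_eqK : (((n + 1 : ℕ) : K)) = ((w : RK) : K) * ((ζ : K) - 1) ^ n := by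
    have := congrArg (fun x : RK => (x : K)) hq_eq
    simpa using this
  have hw0 : ((w : RK) : K) ≠ 0 := by
    intro h0
    exact w.ne_zero (Subtype.ext h0)
  rw [Nat.add_sub_cancel, hq_eqK]
  constructor
  · rw [mul_div_cancel_right₀ _ hpow]
    exact (w : RK).2
  · rw [div_mul_cancel_right₀ hpow]
    have : (((w⁻¹ : RKˣ) : RK) : K) = (((w : RK) : K))⁻¹ := by
      apply eq_inv_of_mul_eq_one_left
      have h3 := congrArg (fun x : RK => (x : K)) (w.inv_mul)
      exact h3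
    rw [← this]
    exact ((w⁻¹ : RKˣ) : RK).2

/-! ### extension of the constants -/

variable {K' : Type*} [Field K'] [Algebra K K'] {RK' : ValuationSubring K'}
  [IsDiscreteValuationRing RK']

/-- the inclusion `RK → RK'`. -/
def formalIncl (hRR : ∀ x : K, algebraMap K K' x ∈ RK' ↔ x ∈ RK) : RK →+* RK' where
  toFun x := ⟨algebraMap K K' (x : K), (hRR x).2 x.2⟩
  map_one' := Subtype.ext (by simp)
  map_mul' a b := Subtype.ext (by simp)
  map_zero' := Subtype.ext (by simp)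
  map_add' a b := Subtype.ext (by simp)

theorem formalIncl_injective (hRR : ∀ x : K, algebraMap K K' x ∈ RK' ↔ x ∈ RK) :
    Function.Injective (formalIncl hRR) := by
  intro a b h
  have h1 : algebraMap K K' (a : K) = algebraMap K K' (b : K) := congrArg Subtype.val h
  exact Subtype.ext ((algebraMap K K').injective h1)

theorem formalIncl_isLocalHom (hRR : ∀ x : K, algebraMap K K' x ∈ RK' ↔ x ∈ RK) :
    IsLocalHom (formalIncl hRR) := by
  refine ⟨fun a ha => ?_⟩
  obtain ⟨b, hb⟩ := ha.exists_right_inv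
  have h1 : algebraMap K K' (a : K) * (b : K') = 1 := congrArg Subtype.val hb
  have ha0 : (a : K) ≠ 0 := by
    intro h0
    rw [h0, map_zero, zero_mul] at h1
    exact zero_ne_one h1
  have h2 : (b : K') = algebraMap K K' (a : K)⁻¹ := by
    rw [map_inv₀]
    exact eq_inv_of_mul_eq_one_right h1
  have h3 : (a : K)⁻¹ ∈ RK := (hRR _).1 (h2 ▸ b.2)
  exact IsUnit.of_mul_eq_one ⟨_, h3⟩ (Subtype.ext (mul_inv_cancel₀ ha0))

/-- the map of residue fields. -/
def formalRes (hRR : ∀ x : K, algebraMap K K' x ∈ RK' ↔ x ∈ RK) :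
    IsLocalRing.ResidueField RK →+* IsLocalRing.ResidueField RK' :=
  haveI := formalIncl_isLocalHom hRR
  IsLocalRing.ResidueField.map (formalIncl hRR)

theorem formal_embL_incl (hRR : ∀ x : K, algebraMap K K' x ∈ RK' ↔ x ∈ RK)
    (s : LaurentSeries RK) :
    embL RK' K' (coeffMap (formalIncl hRR) s) = coeffMap (algebraMap K K') (embL RK K s) := by
  rw [coeffMap_coeffMap, coeffMap_coeffMap]
  rfl

theorem formal_redL_incl (hRR : ∀ x : K, algebraMap K K' x ∈ RK' ↔ x ∈ RK)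
    (s : LaurentSeries RK) :
    redL RK' (coeffMap (formalIncl hRR) s) = coeffMap (formalRes hRR) (redL RK s) := by
  rw [coeffMap_coeffMap, coeffMap_coeffMap]
  rfl

theorem formalRes_coeffMap_injective (hRR : ∀ x : K, algebraMap K K' x ∈ RK' ↔ x ∈ RK) :
    Function.Injective (coeffMap (formalRes hRR)) :=
  Fermat.Agent.S28.coeffMap_injective _ (formalRes hRR).injective

/-- the general formula -/
theorem formal_gredFun_coeffMap (hRR : ∀ x : K, algebraMap K K' x ∈ RK' ↔ x ∈ RK)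
    {x : LaurentSeries K} (hx : IsGInt RK x) :
    IsGInt RK' (coeffMap (algebraMap K K') x) ∧
      gredFun RK' (coeffMap (algebraMap K K') x) = coeffMap (formalRes hRR) (gredFun RK x) := by
  obtain ⟨s, y, hs, hy⟩ := hx
  have hs' : redL RK' (coeffMap (formalIncl hRR) s) ≠ 0 := by
    rw [formal_redL_incl]
    exact (map_ne_zero_iff _ (formalRes_coeffMap_injective hRR)).2 hs
  have hy' : embL RK' K' (coeffMap (formalIncl hRR) s) * coeffMap (algebraMap K K') x =
      embL RK' K' (coeffMap (formalIncl hRR) y) := by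
    rw [formal_embL_incl, formal_embL_incl, ← map_mul, hy]
  refine ⟨⟨_, _, hs', hy'⟩, ?_⟩
  rw [gredFun_eq hs' hy', gredFun_eq hs hy, formal_redL_incl, formal_redL_incl, map_div₀]

theorem isGInt_coeffMap (hRR : ∀ x : K, algebraMap K K' x ∈ RK' ↔ x ∈ RK) {x : LaurentSeries K}
    (hx : IsGInt RK x) : IsGInt RK' (coeffMap (algebraMap K K') x) := by
  exact (formal_gredFun_coeffMap hRR hx).1

theorem bdd_coeffMap (hRR : ∀ x : K, algebraMap K K' x ∈ RK' ↔ x ∈ RK) {x : LaurentSeries K}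
    (hx : Bdd RK x) : Bdd RK' (coeffMap (algebraMap K K') x) := by
  obtain ⟨a, b, hb, h⟩ := hx
  refine ⟨coeffMap (formalIncl hRR) a, coeffMap (formalIncl hRR) b, ?_, ?_⟩
  · exact (map_ne_zero_iff _
      (Fermat.Agent.S28.coeffMap_injective _ (formalIncl_injective hRR))).2 hb
  · rw [formal_embL_incl, formal_embL_incl, ← map_mul, h]

theorem gredFun_coeffMap_eq_zero_iff (hRR : ∀ x : K, algebraMap K K' x ∈ RK' ↔ x ∈ RK)
    {x : LaurentSeries K} (hx : IsGInt RK x) :
    gredFun RK' (coeffMap (algebraMap K K') x) = 0 ↔ gredFun RK x = 0 := by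
  rw [(formal_gredFun_coeffMap hRR hx).2]
  exact map_eq_zero_iff _ (formalRes_coeffMap_injective hRR)

theorem isGInt_coeffMap_iff (hRR : ∀ x : K, algebraMap K K' x ∈ RK' ↔ x ∈ RK)
    {x : LaurentSeries K} (hx : Bdd RK x) :
    IsGInt RK' (coeffMap (algebraMap K K') x) ↔ IsGInt RK x := by
  refine ⟨fun h => ?_, isGInt_coeffMap hRR⟩
  rcases hx.isGInt_or_inv with h1 | h1
  · exact h1
  · by_cases h0 : gredFun RK x⁻¹ = 0
    · by_cases hx0 : x = 0
      · rw [hx0]
        exact (gaussQ RK K).zero_mem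
      · exfalso
        have hX0 : coeffMap (algebraMap K K') x ≠ 0 :=
          (map_ne_zero_iff _
            (Fermat.Agent.S28.coeffMap_injective _ (algebraMap K K').injective)).2 hx0
        have h2 := (gredFun_coeffMap_eq_zero_iff hRR h1).2 h0
        have h3 := gredFun_mul h (isGInt_coeffMap hRR h1)
        rw [h2, mul_zero, map_inv₀, mul_inv_cancel₀ hX0, gredFun_one] at h3
        exact one_ne_zero h3
    · have := h1.inv h0
      rwa [inv_inv] at this

theorem gredFun_coeffMap_eq_iff (hRR : ∀ x : K, algebraMap K K' x ∈ RK' ↔ x ∈ RK)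
    {x y : LaurentSeries K} (hx : IsGInt RK x) (hy : IsGInt RK y) :
    gredFun RK' (coeffMap (algebraMap K K') x) = gredFun RK' (coeffMap (algebraMap K K') y) ↔
      gredFun RK x = gredFun RK y := by
  rw [(formal_gredFun_coeffMap hRR hx).2, (formal_gredFun_coeffMap hRR hy).2]
  exact (formalRes_coeffMap_injective hRR).eq_iff

end

/-! ### formal lemmas over a field `k` -/

section Field

variable {k : Type*} [Field k]

theorem formal_order_qExpand (q : ℕ) [NeZero q] (x : LaurentSeries k) :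
    (qExpand k q x).order = (q : ℤ) * x.order := by
  by_cases hx : x = 0
  · simp [hx]
  have hq : (0 : ℤ) < q := by exact_mod_cast Nat.pos_of_ne_zero (NeZero.ne q)
  have hx' : qExpand k q x ≠ 0 := fun h => hx (qExpand_injective q (by rw [h, map_zero]))
  apply le_antisymm
  · apply HahnSeries.order_le_of_coeff_ne_zero
    rw [qExpand_coeff_mul]
    exact fun h => hx (HahnSeries.coeff_order_eq_zero.mp h)
  · have h1 : (qExpand k q x).coeff (qExpand k q x).order ≠ 0 :=
      fun h => hx' (HahnSeries.coeff_order_eq_zero.mp h)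
    by_cases hd : (q : ℤ) ∣ (qExpand k q x).order
    · obtain ⟨c, hc⟩ := hd
      rw [hc] at h1 ⊢
      rw [qExpand_coeff_mul] at h1
      exact mul_le_mul_of_nonneg_left (HahnSeries.order_le_of_coeff_ne_zero h1) hq.le
    · exact absurd (qExpand_coeff_of_not_dvd q x hd) h1

theorem formal_order_term (q : ℕ) [NeZero q] {g : LaurentSeries k} (hg : g.order = -1)
    (x : LaurentSeries k) (hx : x ≠ 0) (i : ℕ) :
    qExpand k q x * g ^ i ≠ 0 ∧ (qExpand k q x * g ^ i).order = (q : ℤ) * x.order - i := by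
  have hg0 : g ≠ 0 := by
    rintro rfl
    simp at hg
  have hx' : qExpand k q x ≠ 0 := fun h => hx (qExpand_injective q (by rw [h, map_zero]))
  refine ⟨mul_ne_zero hx' (pow_ne_zero _ hg0), ?_⟩
  rw [HahnSeries.order_mul hx' (pow_ne_zero _ hg0), HahnSeries.order_pow, formal_order_qExpand, hg]
  simp
  ring

/-- `1, g, ..., g^(q-1)` are linearly independent over `k((t^q))` if `g` has a simple pole: the
nonzero terms `x_i(t^q) g^i` have pairwise distinct orders (`≡ -i` mod `q`). -/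
theorem indep_qExpand (q : ℕ) [NeZero q] {g : LaurentSeries k} (hg : g.order = -1)
    (x : ℕ → LaurentSeries k) (h : ∑ i ∈ Finset.range q, qExpand k q (x i) * g ^ i = 0) :
    ∀ i < q, x i = 0 := by
  classical
  by_contra hcon
  push Not at hcon
  obtain ⟨i₀, hi₀, hxi₀⟩ := hcon
  set S := (Finset.range q).filter (fun i => x i ≠ 0) with hS
  have hSne : S.Nonempty := ⟨i₀, by simp [hS, hi₀, hxi₀]⟩
  obtain ⟨m, hmS, hmin⟩ := Finset.exists_min_image S (fun i => (q : ℤ) * (x i).order - i) hSne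
  have hm : m < q ∧ x m ≠ 0 := by simpa [hS] using hmS
  have hcoeff := congrArg (fun f : LaurentSeries k => f.coeff ((q : ℤ) * (x m).order - m)) h
  simp only [HahnSeries.coeff_sum, HahnSeries.coeff_zero] at hcoeff
  rw [Finset.sum_eq_single m] at hcoeff
  · obtain ⟨h1, h2⟩ := formal_order_term q hg (x m) hm.2 m
    rw [← h2] at hcoeff
    exact h1 (HahnSeries.coeff_order_eq_zero.mp hcoeff)
  · intro j hj hjm
    by_cases hxj : x j = 0
    · simp [hxj]
    obtain ⟨h1, h2⟩ := formal_order_term q hg (x j) hxj j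
    apply HahnSeries.coeff_eq_zero_of_lt_order
    rw [h2]
    have hjq : j < q := Finset.mem_range.mp hj
    have hle := hmin j (by simp [hS, hjq, hxj])
    refine lt_of_le_of_ne hle ?_
    intro heq
    apply hjm
    have hdvd : (q : ℤ) ∣ (j : ℤ) - m := ⟨(x j).order - (x m).order, by linarith⟩
    have hmq := hm.1
    have := Int.eq_zero_of_abs_lt_dvd hdvd (by
      rw [abs_lt]; constructor <;> omega)
    omega
  · intro hmq
    exact absurd (Finset.mem_range.mpr hm.1) hmq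

/-- Frobenius: `f(t^q) = f(t)^q` for a series with coefficients in the prime field. -/
theorem qExpand_eq_pow (q : ℕ) [NeZero q] [CharP k q] (hq : q.Prime) (H : LaurentSeries ℤ) :
    qExpand k q (coeffMap (Int.castRingHom k) H) = coeffMap (Int.castRingHom k) H ^ q := by
  have := Fact.mk hq
  rw [pow_char_eq_qExpand, coeffMap_coeffMap,
    RingHom.ext_int ((frobenius k q).comp (Int.castRingHom k)) (Int.castRingHom k)]

end Field

end Fermat.Agent.GT.Val
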